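import Mathlib
import Fermat.Prelude.Def_ModularForm_HeckeOperator
import Fermat.Agent.S23.DeltaN

/-!
# S16 package (U/L)-EIS2N, part 1 (helper17)

The weight-2 Eisenstein series `eis2 N = N * E₂(N z) - E₂(z)` as a modular form on `Γ₀(N)`.
-/

set_option autoImplicit false

namespace Fermat.Agent.S16.Eis17

open UpperHalfPlane ModularForm Matrix MatrixGroups Matrix.SpecialLinearGroup Filter Topology
  EisensteinSeries CongruenceSubgroup
open scoped ModularForm Real Manifold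

noncomputable section

/-! ### Boundedness of `D2 γ` and of `E2 ∣ γ` -/

theorem norm_D2_le (γ : SL(2, ℤ)) (z : ℍ) (hz : 1 ≤ z.im) : ‖D2 γ z‖ ≤ 2 * π := by
  unfold D2
  by_cases hc : γ 1 0 = 0
  · simp [hc]; positivity
  · have hden : denom γ z = (γ 1 0 : ℂ) * z + (γ 1 1 : ℂ) := by
      simp [denom]
    have him : (denom γ z).im = (γ 1 0 : ℝ) * z.im := by
      rw [hden]; simp
    have hc' : (1 : ℝ) ≤ |(γ 1 0 : ℝ)| := by
      have : (1 : ℤ) ≤ |γ 1 0| := Int.one_le_abs hc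
      exact_mod_cast this
    have hlow : |(γ 1 0 : ℝ)| * z.im ≤ ‖denom γ z‖ := by
      calc |(γ 1 0 : ℝ)| * z.im = |(denom γ z).im| := by
            rw [him, abs_mul, abs_of_pos z.im_pos]
        _ ≤ ‖denom γ z‖ := Complex.abs_im_le_norm _
    have hpos : 0 < |(γ 1 0 : ℝ)| * z.im := by
      have : 0 < |(γ 1 0 : ℝ)| := lt_of_lt_of_le one_pos hc'
      exact mul_pos this z.im_pos
    have hden_pos : 0 < ‖denom γ z‖ := lt_of_lt_of_le hpos hlow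
    rw [norm_div]
    rw [div_le_iff₀ hden_pos]
    have hnum : ‖2 * (π : ℂ) * Complex.I * (γ 1 0 : ℂ)‖ = 2 * π * |(γ 1 0 : ℝ)| := by
      simp [abs_of_pos Real.pi_pos]
    rw [hnum]
    calc 2 * π * |(γ 1 0 : ℝ)| ≤ 2 * π * (|(γ 1 0 : ℝ)| * z.im) := by
          have : |(γ 1 0 : ℝ)| ≤ |(γ 1 0 : ℝ)| * z.im := by
            nlinarith [abs_nonneg (γ 1 0 : ℝ)]
          have h2 : (0 : ℝ) ≤ 2 * π := by positivity
          exact mul_le_mul_of_nonneg_left this h2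
      _ ≤ 2 * π * ‖denom γ z‖ := by
          have h2 : (0 : ℝ) ≤ 2 * π := by positivity
          exact mul_le_mul_of_nonneg_left hlow h2

theorem isBoundedAtImInfty_D2 (γ : SL(2, ℤ)) : IsBoundedAtImInfty (D2 γ) := by
  rw [isBoundedAtImInfty_iff]
  exact ⟨2 * π, 1, fun z hz => norm_D2_le γ z hz⟩

theorem isBoundedAtImInfty_E2_slash (γ : SL(2, ℤ)) : IsBoundedAtImInfty (E2 ∣[(2 : ℤ)] γ) := by
  rw [E2_slash_action]
  exact isBoundedAtImInfty_E2.sub ((isBoundedAtImInfty_D2 γ).const_smul_left _)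

/-! ### The function `N * E₂(N z) - E₂(z)` -/

/-- `eis2Fun N z = N * E₂(N z) - E₂(z)`, written with the slash action of `diag(N, 1)`. -/
def eis2Fun (N : ℕ) : ℍ → ℂ := E2 ∣[(2 : ℤ)] heckeDiagMatrix N - E2

theorem eis2Fun_apply {N : ℕ} (hN : N ≠ 0) (z : ℍ) :
    eis2Fun N z = (N : ℂ) * E2 (heckeDiagMatrix N • z) - E2 z := by
  unfold eis2Fun
  rw [Pi.sub_apply, slash_heckeDiagMatrix_apply 2 hN]
  norm_num

theorem mdifferentiable_eis2Fun (N : ℕ) : MDiff (eis2Fun N) :=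
  (E2_mdifferentiable.slash 2 (heckeDiagMatrix N)).sub E2_mdifferentiable

/-- For `γ ∈ Γ₀(N)`: `diag(N,1) * γ = γ'' * diag(N,1)` with explicit bottom row of `γ''`. -/
theorem exists_conj_Gamma0 {N : ℕ} (hN : N ≠ 0) {h : SL(2, ℤ)}
    (hh : h ∈ CongruenceSubgroup.Gamma0 N) :
    ∃ h'' : SL(2, ℤ), h'' 1 0 * (N : ℤ) = h 1 0 ∧ h'' 1 1 = h 1 1 ∧
      heckeDiagMatrix N * (h : GL (Fin 2) ℝ) = (h'' : GL (Fin 2) ℝ) * heckeDiagMatrix N := by
  rw [CongruenceSubgroup.Gamma0_mem, ZMod.intCast_zmod_eq_zero_iff_dvd] at hh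
  obtain ⟨c', hc'⟩ := hh
  have hdet : h 0 0 * h 1 1 - h 0 1 * h 1 0 = 1 := by
    have := h.det_coe
    rw [Matrix.det_fin_two] at this
    exact this
  obtain ⟨h'', e00, e01, e10, e11⟩ : ∃ h'' : SL(2, ℤ), h'' 0 0 = h 0 0 ∧
      h'' 0 1 = (N : ℤ) * h 0 1 ∧ h'' 1 0 = c' ∧ h'' 1 1 = h 1 1 := by
    refine ⟨⟨!![h 0 0, (N : ℤ) * h 0 1; c', h 1 1], ?_⟩, rfl, rfl, rfl, rfl⟩
    rw [Matrix.det_fin_two_of]
    rw [hc'] at hdet
    linear_combination hdet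
  refine ⟨h'', by rw [e10, hc']; ring, e11, ?_⟩
  apply Units.ext
  rw [Units.val_mul, Units.val_mul, val_heckeDiagMatrix hN]
  ext i j
  fin_cases i <;> fin_cases j
  · simp [Matrix.mul_apply, Fin.sum_univ_two, e00]
    ring
  · simp [Matrix.mul_apply, Fin.sum_univ_two, e01]
  · simp [Matrix.mul_apply, Fin.sum_univ_two, e10]
    have : ((h 1 0 : ℤ) : ℝ) = (N : ℝ) * (c' : ℝ) := by exact_mod_cast hc'
    rw [this]; ring
  · simp [Matrix.mul_apply, Fin.sum_univ_two, e11]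

/-- The cocycle `D2` is compatible with conjugation by `diag(N,1)`. -/
theorem D2_slash_heckeDiagMatrix {N : ℕ} (hN : N ≠ 0) (h h'' : SL(2, ℤ))
    (h10 : h'' 1 0 * (N : ℤ) = h 1 0) (h11 : h'' 1 1 = h 1 1) :
    D2 h'' ∣[(2 : ℤ)] heckeDiagMatrix N = D2 h := by
  ext z
  rw [slash_heckeDiagMatrix_apply 2 hN]
  unfold D2
  have hN' : (N : ℂ) ≠ 0 := by exact_mod_cast hN
  have hd1 : denom h'' ((heckeDiagMatrix N • z : ℍ) : ℂ) = (h'' 1 0 : ℂ) * ((N : ℂ) * z) + (h'' 1 1 : ℂ) := by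
    simp [denom, coe_heckeDiagMatrix_smul hN]
  have hd2 : denom h z = (h 1 0 : ℂ) * z + (h 1 1 : ℂ) := by
    simp [denom]
  have e10 : (h 1 0 : ℂ) = (h'' 1 0 : ℂ) * (N : ℂ) := by exact_mod_cast h10.symm
  have e11 : (h 1 1 : ℂ) = (h'' 1 1 : ℂ) := by exact_mod_cast h11.symm
  have hden : denom h'' ((heckeDiagMatrix N • z : ℍ) : ℂ) = denom h z := by
    rw [hd1, hd2, e10, e11]; ring
  rw [hden, e10]
  norm_num
  ring

theorem E2_slash_heckeDiagMatrix_slash_of_mem_Gamma0 {N : ℕ} (hN : N ≠ 0) {h : SL(2, ℤ)}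
    (hh : h ∈ CongruenceSubgroup.Gamma0 N) :
    (E2 ∣[(2 : ℤ)] heckeDiagMatrix N) ∣[(2 : ℤ)] h
      = E2 ∣[(2 : ℤ)] heckeDiagMatrix N - (1 / (2 * riemannZeta 2)) • D2 h := by
  obtain ⟨h'', h10, h11, hmat⟩ := exists_conj_Gamma0 hN hh
  rw [ModularForm.SL_slash, ← SlashAction.slash_mul, hmat, SlashAction.slash_mul,
    ← ModularForm.SL_slash, E2_slash_action, sub_eq_add_neg, SlashAction.add_slash,
    SlashAction.neg_slash, ModularForm.smul_slash, σ_heckeDiagMatrix,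
    D2_slash_heckeDiagMatrix hN h h'' h10 h11, ← sub_eq_add_neg]
  rfl

theorem eis2Fun_slash_of_mem_Gamma0 {N : ℕ} (hN : N ≠ 0) {h : SL(2, ℤ)}
    (hh : h ∈ CongruenceSubgroup.Gamma0 N) : eis2Fun N ∣[(2 : ℤ)] h = eis2Fun N := by
  unfold eis2Fun
  rw [sub_eq_add_neg, SlashAction.add_slash, SlashAction.neg_slash,
    E2_slash_heckeDiagMatrix_slash_of_mem_Gamma0 hN hh, E2_slash_action]
  abel

/-- Boundedness at `i∞` of all `SL(2,ℤ)`-translates. -/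
theorem isBoundedAtImInfty_eis2Fun_slash {N : ℕ} (hN : N ≠ 0) (h : SL(2, ℤ)) :
    IsBoundedAtImInfty (eis2Fun N ∣[(2 : ℤ)] h) := by
  unfold eis2Fun
  rw [sub_eq_add_neg, SlashAction.add_slash, SlashAction.neg_slash, ← sub_eq_add_neg]
  refine Asymptotics.IsBigO.sub (f₁ := (E2 ∣[(2 : ℤ)] heckeDiagMatrix N) ∣[(2 : ℤ)] h) ?_ (isBoundedAtImInfty_E2_slash h)
  obtain ⟨h', A, D, B, hA, hD, -, -, hmat⟩ := Fermat.Agent.S23.hermite_decomp N hN h
  rw [ModularForm.SL_slash, ← SlashAction.slash_mul, hmat, SlashAction.slash_mul,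
    ← ModularForm.SL_slash]
  exact IsBoundedAtImInfty.slash 2 (Fermat.Agent.S23.utGL_one_zero A D B hA hD)
    (isBoundedAtImInfty_E2_slash h')

/-- **The weight-2 Eisenstein series of level `Γ₀(N)`**: `z ↦ N * E₂(N z) - E₂(z)`. -/
def eis2 (N : ℕ) [NeZero N] : ModularForm (CongruenceSubgroup.Gamma0 N) 2 where
  toFun := eis2Fun N
  slash_action_eq' γ hγ := by
    obtain ⟨h, hh, rfl⟩ := Subgroup.mem_map.mp hγ
    exact eis2Fun_slash_of_mem_Gamma0 (NeZero.ne N) hh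
  holo' := mdifferentiable_eis2Fun N
  bdd_at_cusps' {c} hc := by
    have hc' : IsCusp c 𝒮ℒ :=
      (Subgroup.IsArithmetic.isCusp_iff_isCusp_SL2Z _).mp hc
    rw [OnePoint.isBoundedAt_iff_forall_SL2Z hc']
    intro γ _
    exact isBoundedAtImInfty_eis2Fun_slash (NeZero.ne N) γ

@[simp] theorem coe_eis2 (N : ℕ) [NeZero N] : ⇑(eis2 N) = eis2Fun N := rfl

theorem eis2_apply (N : ℕ) [NeZero N] (z : ℍ) :
    eis2 N z = (N : ℂ) * E2 (heckeDiagMatrix N • z) - E2 z :=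
  eis2Fun_apply (NeZero.ne N) z

end

end Fermat.Agent.S16.Eis17
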