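import Mathlib
import Fermat.Agent.S16.Eis17.Basic
import Fermat.Prelude.Thm_CongruenceSubgroup_one_mem_strictPeriods_Gamma0

/-!
# S16 package (U/L)-EIS2N, part 2 (helper17): the `q`-expansion of `eis2 N`
-/

set_option autoImplicit false

namespace Fermat.Agent.S16.Eis17

open UpperHalfPlane ModularForm Matrix MatrixGroups Matrix.SpecialLinearGroup Filter Topology
  EisensteinSeries CongruenceSubgroup Complex
open scoped ModularForm Real Manifold ArithmeticFunction.sigma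

noncomputable section

/-- Coefficients of `E₂`. -/
def e2Coeff (m : ℕ) : ℂ := if m = 0 then 1 else -24 * (σ 1 m : ℂ)

/-- Coefficients of `E₂(N z)`. -/
def e2CoeffV (N m : ℕ) : ℂ := if N ∣ m then e2Coeff (m / N) else 0

/-- Coefficients of `eis2 N = N E₂(N z) - E₂(z)`. -/
def eis2Coeff (N m : ℕ) : ℂ := (N : ℂ) * e2CoeffV N m - e2Coeff m

theorem hasSum_E2 (τ : ℍ) :
    HasSum (fun m : ℕ => e2Coeff m • Function.Periodic.qParam 1 τ ^ m) (E2 τ) := by
  simpa only [Function.Periodic.qParam, ofReal_one, div_one, e2Coeff] using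
    hasSum_qExpansion_E2 (z := τ)

theorem qParam_heckeDiagMatrix_smul {N : ℕ} (hN : N ≠ 0) (τ : ℍ) :
    Function.Periodic.qParam 1 ((heckeDiagMatrix N • τ : ℍ) : ℂ)
      = Function.Periodic.qParam 1 τ ^ N := by
  rw [coe_heckeDiagMatrix_smul hN]
  simp only [Function.Periodic.qParam, ofReal_one, div_one]
  rw [← Complex.exp_nat_mul]
  congr 1
  ring

theorem hasSum_E2_heckeDiagMatrix {N : ℕ} (hN : N ≠ 0) (τ : ℍ) :
    HasSum (fun m : ℕ => e2CoeffV N m • Function.Periodic.qParam 1 τ ^ m)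
      (E2 (heckeDiagMatrix N • τ)) := by
  have h1 := hasSum_E2 (heckeDiagMatrix N • τ)
  simp only [qParam_heckeDiagMatrix_smul hN, ← pow_mul] at h1
  have hinj : Function.Injective (fun m : ℕ => N * m) :=
    fun a b hab => Nat.eq_of_mul_eq_mul_left (Nat.pos_of_ne_zero hN) hab
  have hzero : ∀ x ∉ Set.range (fun m : ℕ => N * m),
      e2CoeffV N x • Function.Periodic.qParam 1 τ ^ x = 0 := by
    intro x hx
    have : ¬ N ∣ x := fun ⟨k, hk⟩ => hx ⟨k, hk.symm⟩
    simp [e2CoeffV, this]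
  rw [← hinj.hasSum_iff hzero]
  convert h1 using 2 with m
  simp [e2CoeffV, Function.comp, Nat.mul_div_cancel_left _ (Nat.pos_of_ne_zero hN)]

theorem hasSum_eis2 (N : ℕ) [NeZero N] (τ : ℍ) :
    HasSum (fun m : ℕ => eis2Coeff N m • Function.Periodic.qParam 1 τ ^ m) (eis2 N τ) := by
  rw [eis2_apply]
  have h1 := (hasSum_E2_heckeDiagMatrix (NeZero.ne N) τ).mul_left (N : ℂ)
  have h2 := hasSum_E2 τ
  have h3 := h1.sub h2
  have hfun : (fun m : ℕ => eis2Coeff N m • Function.Periodic.qParam 1 τ ^ m)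
      = fun m : ℕ => (N : ℂ) * e2CoeffV N m • Function.Periodic.qParam 1 (τ : ℂ) ^ m
        - e2Coeff m • Function.Periodic.qParam 1 (τ : ℂ) ^ m := by
    funext m
    simp only [eis2Coeff, smul_eq_mul]
    ring
  rw [hfun]
  exact h3

theorem qExpansion_eis2_coeff (N : ℕ) [NeZero N] (m : ℕ) :
    (qExpansion 1 (eis2 N)).coeff m = eis2Coeff N m :=
  (ModularFormClass.qExpansion_coeff_unique one_pos
    (CongruenceSubgroup.one_mem_strictPeriods_Gamma0 N) (hasSum_eis2 N) m).symm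

end

end Fermat.Agent.S16.Eis17

namespace Fermat.Agent.S16.Eis17

open scoped ArithmeticFunction.sigma

/-- `sigmaNot N m = ∑_{d ∣ m, N ∤ d} d`. -/
def sigmaNot (N m : ℕ) : ℕ := ∑ d ∈ m.divisors with ¬ N ∣ d, d

theorem sum_divisors_filter_dvd (N m : ℕ) (hN : N ≠ 0) (hm : m ≠ 0) :
    ∑ d ∈ m.divisors with N ∣ d, d = if N ∣ m then N * σ 1 (m / N) else 0 := by
  split_ifs with h
  · obtain ⟨k, rfl⟩ := h
    have hk : k ≠ 0 := fun hk => hm (by simp [hk])
    rw [Nat.mul_div_cancel_left _ (Nat.pos_of_ne_zero hN), ArithmeticFunction.sigma_one_apply,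
      Finset.mul_sum]
    refine (Finset.sum_bij (fun e _ => N * e) ?_ ?_ ?_ ?_).symm
    · intro e he
      rw [Finset.mem_filter, Nat.mem_divisors]
      exact ⟨⟨Nat.mul_dvd_mul_left N (Nat.dvd_of_mem_divisors he), hm⟩, dvd_mul_right N e⟩
    · intro a _ b _ hab
      exact Nat.eq_of_mul_eq_mul_left (Nat.pos_of_ne_zero hN) hab
    · intro d hd
      rw [Finset.mem_filter, Nat.mem_divisors] at hd
      obtain ⟨⟨hdm, _⟩, e, rfl⟩ := hd
      refine ⟨e, ?_, rfl⟩
      rw [Nat.mem_divisors]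
      exact ⟨(Nat.mul_dvd_mul_iff_left (Nat.pos_of_ne_zero hN)).mp hdm, hk⟩
    · intro e _
      rfl
  · apply Finset.sum_eq_zero
    intro d hd
    rw [Finset.mem_filter, Nat.mem_divisors] at hd
    exact absurd (dvd_trans hd.2 hd.1.1) h

theorem sigma_one_eq_sigmaNot_add (N m : ℕ) (hN : N ≠ 0) (hm : m ≠ 0) :
    σ 1 m = sigmaNot N m + if N ∣ m then N * σ 1 (m / N) else 0 := by
  rw [← sum_divisors_filter_dvd N m hN hm, ArithmeticFunction.sigma_one_apply, sigmaNot, add_comm]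
  exact (Finset.sum_filter_add_sum_filter_not _ _ _).symm

theorem eis2Coeff_zero (N : ℕ) : eis2Coeff N 0 = (N : ℂ) - 1 := by
  simp [eis2Coeff, e2CoeffV, e2Coeff]

theorem eis2Coeff_of_ne_zero (N m : ℕ) (hN : N ≠ 0) (hm : m ≠ 0) :
    eis2Coeff N m = 24 * (sigmaNot N m : ℂ) := by
  have h := sigma_one_eq_sigmaNot_add N m hN hm
  unfold eis2Coeff e2CoeffV
  by_cases hd : N ∣ m
  · rw [if_pos hd] at h ⊢
    have hq : m / N ≠ 0 := by
      obtain ⟨k, rfl⟩ := hd
      rw [Nat.mul_div_cancel_left _ (Nat.pos_of_ne_zero hN)]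
      exact fun hk => hm (by simp [hk])
    simp only [e2Coeff, if_neg hm, if_neg hq]
    have h' : (σ 1 m : ℂ) = (sigmaNot N m : ℂ) + (N : ℂ) * (σ 1 (m / N) : ℂ) := by
      exact_mod_cast congrArg (Nat.cast (R := ℂ)) h
    rw [h']
    ring
  · rw [if_neg hd] at h ⊢
    simp only [e2Coeff, if_neg hm]
    have h' : (σ 1 m : ℂ) = (sigmaNot N m : ℂ) := by
      exact_mod_cast congrArg (Nat.cast (R := ℂ)) h
    rw [h']
    ring

/-- **The `q`-expansion of `eis2 N`**: constant term `N - 1`. -/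
theorem qExpansion_eis2_coeff_zero (N : ℕ) [NeZero N] :
    (UpperHalfPlane.qExpansion 1 (eis2 N)).coeff 0 = (N : ℂ) - 1 := by
  rw [qExpansion_eis2_coeff, eis2Coeff_zero]

/-- **The `q`-expansion of `eis2 N`**: higher coefficients `24 * ∑_{d ∣ m, N ∤ d} d`. -/
theorem qExpansion_eis2_coeff_of_ne_zero (N : ℕ) [NeZero N] (m : ℕ) (hm : m ≠ 0) :
    (UpperHalfPlane.qExpansion 1 (eis2 N)).coeff m = 24 * (sigmaNot N m : ℂ) := by
  rw [qExpansion_eis2_coeff, eis2Coeff_of_ne_zero N m (NeZero.ne N) hm]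

end Fermat.Agent.S16.Eis17
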