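import Mathlib
import Fermat.Agent.S16.Eis17.QExp
import Fermat.Agent.S16.UIface39

/-!
# S16 package (U/L)-EIS2N, part 3 (helper17): the input `EisStmt` of the (U) assembly

`UIface39.EisStmt` (helper39's interface) from `eis2 p`.
-/

set_option autoImplicit false

namespace Fermat.Agent.S16.Eis17

open CongruenceSubgroup ModularFormClass UpperHalfPlane

theorem sigmaP_eq_sigmaNot (p k : ℕ) : UIface39.sigmaP p k = (sigmaNot p k : ℤ) := by
  simp [UIface39.sigmaP, sigmaNot]

/-- **(EIS)**: the Eisenstein series `p E₂(pz) - E₂(z)` of level `p`, in the exact shape of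
`UIface39.EisStmt`. -/
theorem eisStmt : UIface39.EisStmt := by
  intro p hp
  have : NeZero p := ⟨hp.ne_zero⟩
  refine ⟨eis2 p, ?_, ?_⟩
  · exact qExpansion_eis2_coeff_zero p
  · intro k hk
    have hk0 : k ≠ 0 := Nat.one_le_iff_ne_zero.mp hk
    rw [sigmaP_eq_sigmaNot]
    unfold ModularFormClass.qCoeff
    rw [qExpansion_eis2_coeff_of_ne_zero p k hk0]
    push_cast
    rfl

end Fermat.Agent.S16.Eis17
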